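import Fermat.Agent.TW.Easy.ResHecke
import Fermat.Agent.M59.DTwin.Res.Main
import Fermat.Agent.S44.OldK.Cls
import Fermat.Agent.S44.OldK.RedHecke
import Fermat.Agent.S44.OldK.LevelM
import Fermat.Agent.S44.WJ.Hecke

/-!
# M59 (helper20, generator): EVEN-LEVEL twin of TW/Easy/ResHecke.lean (helper12), section `Main`

`2 ∣ M`, exponent `m` prime to `2` (in use `m = 3 ^ n`); `twfk_Star` is reused.  Prefix `m59rk_`.
-/

set_option autoImplicit false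
set_option linter.unusedSectionVars false
set_option linter.style.haveILetI false
set_option synthInstance.maxHeartbeats 400000
set_option maxHeartbeats 1000000

noncomputable section

namespace Fermat.Agent.M59

open Fermat.Agent.TW

open ModularCurve AlgebraicCurve IsLocalRing Fermat.Agent.JT3 Fermat.Agent.S35 Fermat.Agent.SS
  Fermat.Agent.S24 Fermat.Agent.SS2 Fermat.Agent.S44 Fermat.Agent.MZ

local notation "Qb" => AlgebraicClosure ℚ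

section Main

variable (A : ValuationSubring Qb) {q : ℕ} [hq : Fact q.Prime] (hA : A.LiesOverPrime q)
  (M : ℕ) [NeZero M] [NeZero q] [NeZero (M * q)] (hqM : ¬ q ∣ M) (hq2 : q ≠ 2)
  {m : ℕ} (hm0 : m ≠ 0) (hM2 : 2 ∣ M) (hm2 : Nat.Coprime m 2)

include hA hqM hq2 hm0 hM2 hm2

/-- on `J₀(M q)[m] ∩ ker ν` the chosen reduction `f̄_z` is `m`-divisible. -/
theorem m59rk_pdiv {z : JZero (M * q)} (hz : m • z = 0)
    (hν : twfr_nu A M q hq.out hqM m z = 0) :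
    s44k2d_PDiv (K := s44e_kA A) m (twfr_fbar A M q m z) :=
  ⟨(twfr_fbar_spec' A hA M hqM hm0 hz).1, m59res_dvd_all A hA M hqM hq2 hm0 hM2 hm2 hz hν⟩

/-- for ANY `f̄_z` which is `m`-divisible: `δ z = s44k2d_cls m f̄_z`. -/
theorem m59rk_delta_eq_cls_of {z : JZero (M * q)} (hz : m • z = 0) {fb : s44e_FF A M}
    (h : twfr_Fbar A M q m z fb) (hpd : s44k2d_PDiv (K := s44e_kA A) m fb) :
    haveI : HasPrincipalDivisors (s44e_kA A) (s44e_FF A M) :=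
      (haveI : CharP (s44e_kA A) q := jcr_charP A hA
       haveI : IsAlgClosed (s44e_kA A) := jcr_isAlgClosed A
       rt_hasPrincipalDivisors (jcr_isSepGen (k := s44e_kA A) M hqM (jcr_rho A hA)))
    twfr_delta A M q m z = s44k2d_cls (K := s44e_kA A) m fb := by
  haveI : CharP (s44e_kA A) q := jcr_charP A hA
  haveI : IsAlgClosed (s44e_kA A) := jcr_isAlgClosed A
  haveI : HasPrincipalDivisors (s44e_kA A) (s44e_FF A M) :=
    rt_hasPrincipalDivisors (jcr_isSepGen (k := s44e_kA A) M hqM (jcr_rho A hA))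
  obtain ⟨D, hD, hcls⟩ := s44k2d_cls_spec hm0 hpd
  rw [hcls]
  exact twfr_delta_eq A hq.out hA M hqM (Nat.pos_of_ne_zero hm0) (s44rd_hmem A hA M hqM) hz h D hD

/-- on `J₀(M q)[m] ∩ ker ν`: `δ z = s44k2d_cls m f̄_z`. -/
theorem m59rk_delta_eq_cls {z : JZero (M * q)} (hz : m • z = 0)
    (hν : twfr_nu A M q hq.out hqM m z = 0) :
    haveI : HasPrincipalDivisors (s44e_kA A) (s44e_FF A M) :=
      (haveI : CharP (s44e_kA A) q := jcr_charP A hA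
       haveI : IsAlgClosed (s44e_kA A) := jcr_isAlgClosed A
       rt_hasPrincipalDivisors (jcr_isSepGen (k := s44e_kA A) M hqM (jcr_rho A hA)))
    twfr_delta A M q m z = s44k2d_cls (K := s44e_kA A) m (twfr_fbar A M q m z) :=
  m59rk_delta_eq_cls_of A hA M hqM hq2 hm0 hM2 hm2 hz (twfr_fbar_spec' A hA M hqM hm0 hz)
    (m59rk_pdiv A hA M hqM hq2 hm0 hM2 hm2 hz hν)

/-- **(Z6) [RES-Hecke]**: (★★) ⟹ `δ (T_ℓ z) = T̃_ℓ (δ z)` on `J₀(M q)[m] ∩ ker ν`, `ℓ ∤ M q`. -/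
theorem m59rk_delta_hecke (ℓ : Nat.Primes) (hℓ : ¬ (ℓ : ℕ) ∣ M * q)
    (hStar : twfk_Star A M q m ℓ) {z : JZero (M * q)} (hz : m • z = 0)
    (hν : twfr_nu A M q hq.out hqM m z = 0) :
    twfr_delta A M q m (heckeOperatorBar (M * q) ℓ z) =
      s44k2_TCp (s44e_kA A) M ℓ (twfr_delta A M q m z) := by
  haveI : NeZero (ℓ : ℕ) := ⟨ℓ.2.ne_zero⟩
  haveI : CharP (s44e_kA A) q := jcr_charP A hA
  haveI : IsAlgClosed (s44e_kA A) := jcr_isAlgClosed A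
  haveI hpd : HasPrincipalDivisors (s44e_kA A) (s44e_FF A M) :=
    rt_hasPrincipalDivisors (jcr_isSepGen (k := s44e_kA A) M hqM (jcr_rho A hA))
  have hqℓ : ¬ q ∣ (ℓ : ℕ) := fun hd =>
    hℓ ((Nat.prime_dvd_prime_iff_eq hq.out ℓ.2).mp hd ▸ Dvd.intro_left M rfl)
  have hTz : m • heckeOperatorBar (M * q) ℓ z = 0 := by
    rw [← map_nsmul, hz, map_zero]
  obtain ⟨hαC, hβC, hPC, hfinC, hFIC, hNC⟩ :=
    mzrh_heckeInputsC M ℓ (jcr_rho A hA) hqM hqℓ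
  haveI := hPC
  have hs := twfr_fbar_spec' A hA M hqM hm0 hz
  have hpdiv := m59rk_pdiv A hA M hqM hq2 hm0 hM2 hm2 hz hν
  have hS := hStar z _ hz hs
  have hpdivN := s44k2d_pdiv_corr (mzrh_beC (s44e_kA A) M ℓ) (mzrh_alC (s44e_kA A) M ℓ)
    hβC hαC hFIC hfinC hNC hm0 hpdiv
  rw [m59rk_delta_eq_cls_of A hA M hqM hq2 hm0 hM2 hm2 hTz hS hpdivN,
    m59rk_delta_eq_cls A hA M hqM hq2 hm0 hM2 hm2 hz hν,
    s44k2d_cls_corr (mzrh_beC (s44e_kA A) M ℓ) (mzrh_alC (s44e_kA A) M ℓ) hβC hαC hFIC hfinC hNC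
      hm0 hpdiv, s44k2_TCp_eq, s44k2_TC_eq hαC hβC hFIC hfinC hNC]

/-- **(Z6) for `δ₀ = δ ∘ W_q`**: (★★) ⟹ `δ₀ (T_ℓ z) = T̃_ℓ (δ₀ z)` for `z ∈ J₀(M q)[m]` with
`ν (W_q z) = 0`, `ℓ ∤ M q`. -/
theorem m59rk_delta0_hecke (ℓ : Nat.Primes) (hℓ : ¬ (ℓ : ℕ) ∣ M * q)
    (hStar : twfk_Star A M q m ℓ) {z : JZero (M * q)} (hz : m • z = 0)
    (hν : twfr_nu A M q hq.out hqM m (s44w_WJ M q hq.out hqM z) = 0) :
    twfr_delta A M q m (s44w_WJ M q hq.out hqM (heckeOperatorBar (M * q) ℓ z)) =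
      s44k2_TCp (s44e_kA A) M ℓ (twfr_delta A M q m (s44w_WJ M q hq.out hqM z)) := by
  have hWz : m • s44w_WJ M q hq.out hqM z = 0 := by rw [← map_nsmul, hz, map_zero]
  haveI : NeZero (ℓ : ℕ) := ⟨ℓ.2.ne_zero⟩
  have h1 := s44w_WJ_hecke M q (ℓ : ℕ) hq.out hqM ℓ.2 hℓ z m hm0 hz
  have h2 : (⟨(ℓ : ℕ), ℓ.2⟩ : Nat.Primes) = ℓ := rfl
  rw [h2] at h1
  rw [h1]
  exact m59rk_delta_hecke A hA M hqM hq2 hm0 hM2 hm2 ℓ hℓ hStar hWz hν

end Main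

end Fermat.Agent.M59
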