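/-
M59 (helper20, generator): EVEN-LEVEL twin of TW/Easy/ResHecke/Main.lean (helper15), section `Closed`:
(Z6) [RES-Hecke] for `2 ∣ M`, exponent `m` prime to `2` (in use `m = 3 ^ n`).  Prefix `m59rq_`.
-/
import Mathlib
import Fermat.Agent.TW.Easy.ResHecke.Star
import Fermat.Agent.TW.Easy.ResHecke
import Fermat.Agent.TW.Easy.ResHecke.Main
import Fermat.Agent.M59.DTwin.ResHecke.K
import Fermat.Agent.S44.OldK.DeltaInst

set_option autoImplicit false
set_option linter.unusedSectionVars false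
set_option linter.unusedVariables false
set_option linter.style.haveILetI false
set_option synthInstance.maxHeartbeats 400000
set_option maxHeartbeats 1000000

noncomputable section

namespace Fermat.Agent.M59

open Fermat.Agent.TW

open ModularCurve AlgebraicCurve IntermediateField IsLocalRing
open Fermat.Agent.JT3 Fermat.Agent.SS Fermat.Agent.S35 Fermat.Agent.S24 Fermat.Agent.S28
open Fermat.Agent.MZ Fermat.Agent.S44

local notation "Qb" => AlgebraicClosure ℚ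

section Closed

variable (A : ValuationSubring Qb) {q : ℕ} [hq : Fact q.Prime] (hA : A.LiesOverPrime q)
  (M : ℕ) [NeZero M] [NeZero q] [NeZero (M * q)] (hqM : ¬ q ∣ M) (hq2 : q ≠ 2)
  {m : ℕ} (hm0 : m ≠ 0) (hM2 : 2 ∣ M) (hm2 : Nat.Coprime m 2)

include hA hqM hq2 hm0 hM2 hm2

/-- **(Z6) [RES-Hecke]**: `δ (T_ℓ z) = T̃_ℓ (δ z)` on `J₀(M q)[m] ∩ ker ν`, every prime `ℓ ∤ M q`. -/
theorem m59rq_delta_hecke (ℓ : Nat.Primes) (hℓN : ¬ (ℓ : ℕ) ∣ M * q) {z : JZero (M * q)}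
    (hz : m • z = 0) (hν : twfr_nu A M q hq.out hqM m z = 0) :
    twfr_delta A M q m (heckeOperatorBar (M * q) ℓ z) =
      s44k2_TCp (s44e_kA A) M ℓ (twfr_delta A M q m z) :=
  twfq_delta_hecke_of A hA M hqM hm0 ℓ hℓN hz (twfr_fbar_spec' A hA M hqM hm0 hz)
    (m59res_dvd_all A hA M hqM hq2 hm0 hM2 hm2 hz hν)

/-- `ν z = 0 ⟹ ν (T_ℓ z) = 0` (at every place). -/
theorem m59rq_nu_hecke_zero (ℓ : Nat.Primes) (hℓN : ¬ (ℓ : ℕ) ∣ M * q) {z : JZero (M * q)}
    (hz : m • z = 0) (hν : twfr_nu A M q hq.out hqM m z = 0) :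
    twfr_nu A M q hq.out hqM m (heckeOperatorBar (M * q) ℓ z) = 0 := by
  funext i
  exact twfq_dvd_hecke_of A hA M hqM hm0 ℓ hℓN (twfr_fbar_spec' A hA M hqM hm0 hz)
    (m59res_dvd_all A hA M hqM hq2 hm0 hM2 hm2 hz hν) i.1

/-- `δ` commutes with integer multiples on `J₀(M q)[m] ∩ ker ν`. -/
theorem m59rq_delta_zsmul {z : JZero (M * q)} (hz : m • z = 0)
    (hν : twfr_nu A M q hq.out hqM m z = 0) (a : ℤ) :
    twfr_nu A M q hq.out hqM m (a • z) = 0 ∧
      twfr_delta A M q m (a • z) = a • twfr_delta A M q m z := by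
  have hzero : twfr_nu A M q hq.out hqM m (0 : JZero (M * q)) = 0 ∧
      twfr_delta A M q m (0 : JZero (M * q)) = 0 := by
    have h0 : m • (0 : JZero (M * q)) = 0 := smul_zero _
    have hν0 : twfr_nu A M q hq.out hqM m (0 : JZero (M * q)) = 0 := by
      have h := twfr_nu_add A hA M hqM hm0 h0 h0
      rw [add_zero] at h
      exact left_eq_add.1 h
    refine ⟨hν0, ?_⟩
    have h := m59res_delta_add_of_nu A hA M hqM hq2 hm0 hM2 hm2 h0 h0 hν0 hν0
    rw [add_zero] at h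
    exact left_eq_add.1 h
  have hnat : ∀ n : ℕ, twfr_nu A M q hq.out hqM m (n • z) = 0 ∧
      twfr_delta A M q m (n • z) = n • twfr_delta A M q m z := by
    intro n
    induction n with
    | zero => rw [zero_nsmul, zero_nsmul]; exact hzero
    | succ n ih =>
      have hnz : m • (n • z) = 0 := by rw [smul_comm, hz, smul_zero]
      refine ⟨?_, ?_⟩
      · rw [succ_nsmul, twfr_nu_add A hA M hqM hm0 hnz hz, ih.1, hν, add_zero]
      · rw [succ_nsmul, succ_nsmul,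
          m59res_delta_add_of_nu A hA M hqM hq2 hm0 hM2 hm2 hnz hz ih.1 hν, ih.2]
  have hneg : ∀ w : JZero (M * q), m • w = 0 → twfr_nu A M q hq.out hqM m w = 0 →
      twfr_nu A M q hq.out hqM m (-w) = 0 ∧
        twfr_delta A M q m (-w) = -twfr_delta A M q m w := by
    intro w hw hνw
    have hnw : m • (-w) = 0 := by rw [neg_nsmul, hw, _root_.neg_zero]
    have h1 := twfr_nu_add A hA M hqM hm0 hw hnw
    rw [add_neg_cancel, hzero.1, hνw, zero_add] at h1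
    refine ⟨h1.symm, ?_⟩
    have h2 := m59res_delta_add_of_nu A hA M hqM hq2 hm0 hM2 hm2 hw hnw hνw h1.symm
    rw [add_neg_cancel, hzero.2] at h2
    exact (neg_eq_of_add_eq_zero_right h2.symm).symm
  obtain ⟨n, rfl | rfl⟩ := a.eq_nat_or_neg
  · rw [natCast_zsmul, natCast_zsmul]
    exact hnat n
  · have hnz : m • (n • z) = 0 := by rw [smul_comm, hz, smul_zero]
    rw [neg_smul, neg_smul, natCast_zsmul, natCast_zsmul]
    obtain ⟨h1, h2⟩ := hneg (n • z) hnz (hnat n).1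
    exact ⟨h1, by rw [h2, (hnat n).2]⟩

/-- **eigen-form of (Z6)**: `T_ℓ z = a • z`, `ν z = 0 ⟹ T̃_ℓ (δ z) = a • δ z`. -/
theorem m59rq_delta_eigen (ℓ : Nat.Primes) (hℓN : ¬ (ℓ : ℕ) ∣ M * q) {z : JZero (M * q)}
    (hz : m • z = 0) (hν : twfr_nu A M q hq.out hqM m z = 0) (a : ℤ)
    (he : heckeOperatorBar (M * q) ℓ z = a • z) :
    s44k2_TCp (s44e_kA A) M ℓ (twfr_delta A M q m z) = a • twfr_delta A M q m z := by
  rw [← m59rq_delta_hecke A hA M hqM hq2 hm0 hM2 hm2 ℓ hℓN hz hν, he]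
  exact (m59rq_delta_zsmul A hA M hqM hq2 hm0 hM2 hm2 hz hν a).2

/-- helper12's hypothesis `twfk_Star` (`TW/Easy/ResHecke.lean`) is a theorem. -/
theorem m59rq_star (ℓ : Nat.Primes) (hℓN : ¬ (ℓ : ℕ) ∣ M * q) : twfk_Star A M q m ℓ :=
  fun _ _ _ h => twfq_fbar_hecke A hA M hqM ℓ hℓN h

/-- **(Z6) for `δ₀ = δ ∘ W_q`**, unconditional (helper12's `m59rk_delta0_hecke` + (★★)_m). -/
theorem m59rq_delta0_hecke (ℓ : Nat.Primes) (hℓN : ¬ (ℓ : ℕ) ∣ M * q) {z : JZero (M * q)}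
    (hz : m • z = 0)
    (hν : twfr_nu A M q hq.out hqM m (s44w_WJ M q hq.out hqM z) = 0) :
    twfr_delta A M q m (s44w_WJ M q hq.out hqM (heckeOperatorBar (M * q) ℓ z)) =
      s44k2_TCp (s44e_kA A) M ℓ (twfr_delta A M q m (s44w_WJ M q hq.out hqM z)) :=
  m59rk_delta0_hecke A hA M hqM hq2 hm0 hM2 hm2 ℓ hℓN
    (m59rq_star A hA M hqM hq2 hm0 hM2 hm2 ℓ hℓN) hz hν

end Closed

end Fermat.Agent.M59
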